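/-
S56, [GW-EC] cell (EC3) [EC-IND] (owner helper25), char-0 half, part (Q1) (helper17):
ARTIN'S COUNTING, ELEMENTARY FORM.

For a finite group `G`: the constant function `|G|` is a `ℤ`-combination of the permutation
characters `g ↦ #Fix(g | G ⧸ B)`, `B` running through the CYCLIC subgroups of `G`.

* `s56eq_fix B g`  := `#Fix(g | G ⧸ B)`;
* `s56eq_n H g`    := `#{x | x⁻¹ g x ∈ H}` `= |H| * s56eq_fix H g`            (`s56eq_n_eq`);
* `s56eq_e C g`    := `#{x | zpowers (x⁻¹ g x) = C}`;
  `s56eq_n C g = ∑_{B ≤ C} s56eq_e B g` (`s56eq_n_eq_sum`), `∑_C s56eq_e C g = |G|`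
  (`s56eq_sum_e`);
* `s56eq_artin`      : the `ℤ`-combination (coefficients a `Finsupp`, instance-free statement);
* `s56eq_artin_sets` : the same with two finite `G`-sets `Σ i, G ⧸ B i`.
Prefix `s56eq_`.
-/
import Mathlib

set_option autoImplicit false
set_option linter.unusedSectionVars false
set_option linter.style.haveILetI false

namespace Fermat.Agent.S56

open MulAction

noncomputable section

variable {G : Type} [Group G]

/-- the number of fixed points of `g` on `G ⧸ B` -/
def s56eq_fix (B : Subgroup G) (g : G) : ℕ := Nat.card (fixedBy (G ⧸ B) g)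

/-- `#{x | x⁻¹ g x ∈ H}` -/
def s56eq_n (H : Subgroup G) (g : G) : ℕ := Nat.card {x : G // x⁻¹ * g * x ∈ H}

/-- `#{x | ⟨x⁻¹ g x⟩ = C}` -/
def s56eq_e (C : Subgroup G) (g : G) : ℕ :=
  Nat.card {x : G // Subgroup.zpowers (x⁻¹ * g * x) = C}

theorem s56eq_mem_fixedBy_iff (H : Subgroup G) (g x : G) :
    (x : G ⧸ H) ∈ fixedBy (G ⧸ H) g ↔ x⁻¹ * g * x ∈ H := by
  rw [mem_fixedBy, MulAction.Quotient.smul_coe, smul_eq_mul, QuotientGroup.eq]
  constructor
  · intro h
    have := H.inv_mem h
    simpa [mul_assoc] using this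
  · intro h
    have := H.inv_mem h
    simpa [mul_assoc] using this

/-- `n(g,H) = |H| · #Fix(g | G/H)` -/
theorem s56eq_n_eq [Finite G] (H : Subgroup G) (g : G) :
    s56eq_n H g = Nat.card H * s56eq_fix H g := by
  have h1 : {x : G | x⁻¹ * g * x ∈ H} = QuotientGroup.mk ⁻¹' (fixedBy (G ⧸ H) g) := by
    ext x
    rw [Set.mem_preimage, s56eq_mem_fixedBy_iff]
    rfl
  unfold s56eq_n s56eq_fix
  rw [← Nat.card_prod]
  refine Nat.card_congr ?_
  exact (Equiv.setCongr h1).trans (QuotientGroup.preimageMkEquivSubgroupProdSet H _)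

theorem s56eq_n_eq_sum [Fintype G] [Fintype (Subgroup G)] [DecidableRel (α := Subgroup G) (· ≤ ·)]
    (C : Subgroup G) (g : G) :
    s56eq_n C g = ∑ B ∈ Finset.univ.filter (fun B : Subgroup G => B ≤ C), s56eq_e B g := by
  classical
  unfold s56eq_n s56eq_e
  rw [Nat.card_eq_fintype_card, Fintype.card_subtype]
  rw [Finset.card_eq_sum_card_fiberwise (f := fun x : G => Subgroup.zpowers (x⁻¹ * g * x))
    (t := Finset.univ.filter (fun B : Subgroup G => B ≤ C))]
  · refine Finset.sum_congr rfl fun B hB => ?_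
    rw [Nat.card_eq_fintype_card, Fintype.card_subtype]
    congr 1
    ext x
    simp only [Finset.mem_filter, Finset.mem_univ, true_and, and_iff_right_iff_imp]
    intro hx
    rw [Finset.mem_filter] at hB
    exact hB.2 (hx ▸ Subgroup.mem_zpowers _)
  · intro x hx
    rw [Finset.mem_coe, Finset.mem_filter] at hx
    rw [Finset.mem_coe, Finset.mem_filter]
    exact ⟨Finset.mem_univ _, (Subgroup.zpowers_le.mpr hx.2)⟩

theorem s56eq_sum_e [Fintype G] [Fintype (Subgroup G)] (g : G) :
    ∑ C : Subgroup G, s56eq_e C g = Fintype.card G := by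
  classical
  unfold s56eq_e
  rw [← Finset.card_univ (α := G),
    Finset.card_eq_sum_card_fiberwise (f := fun x : G => Subgroup.zpowers (x⁻¹ * g * x))
      (t := (Finset.univ : Finset (Subgroup G))) (fun x _ => Finset.mem_coe.mpr (Finset.mem_univ _))]
  refine Finset.sum_congr rfl fun B _ => ?_
  rw [Nat.card_eq_fintype_card, Fintype.card_subtype]

/-- the permutation character of `G ⧸ B` as an integer valued function -/
def s56eq_F (B : Subgroup G) : G → ℤ := fun g => (s56eq_fix B g : ℤ)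

/-- `e(·,C)` is a `ℤ`-combination of the permutation characters of `G ⧸ B`, `B ≤ C` -/
theorem s56eq_e_mem_span [Finite G] (C : Subgroup G) :
    (fun g => (s56eq_e C g : ℤ)) ∈
      Submodule.span ℤ ((s56eq_F (G := G)) '' Set.Iic C) := by
  classical
  haveI : Fintype G := Fintype.ofFinite G
  haveI : Fintype (Subgroup G) := Fintype.ofFinite _
  induction C using WellFoundedLT.induction with
  | ind C ih =>
    have h1 : (fun g => (s56eq_e C g : ℤ)) =
        (Nat.card C : ℤ) • s56eq_F C -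
          ∑ B ∈ Finset.univ.filter (fun B : Subgroup G => B < C),
            (fun g => (s56eq_e B g : ℤ)) := by
      funext g
      have h2 := s56eq_n_eq_sum C g
      rw [s56eq_n_eq] at h2
      have h3 : Finset.univ.filter (fun B : Subgroup G => B ≤ C) =
          insert C (Finset.univ.filter (fun B : Subgroup G => B < C)) := by
        ext B
        simp only [Finset.mem_filter, Finset.mem_univ, true_and, Finset.mem_insert]
        rw [le_iff_eq_or_lt]
      rw [h3, Finset.sum_insert (by simp)] at h2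
      simp only [Pi.sub_apply, Pi.smul_apply, Finset.sum_apply, smul_eq_mul, s56eq_F]
      have h4 : ((Nat.card C * s56eq_fix C g : ℕ) : ℤ) =
          ((s56eq_e C g + ∑ B ∈ Finset.univ.filter (fun B : Subgroup G => B < C),
            s56eq_e B g : ℕ) : ℤ) := by rw [h2]
      push_cast at h4
      linarith
    rw [h1]
    refine Submodule.sub_mem _ (Submodule.smul_mem _ _ (Submodule.subset_span ?_))
      (Submodule.sum_mem _ fun B hB => ?_)
    · exact ⟨C, Set.mem_Iic.mpr le_rfl, rfl⟩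
    · rw [Finset.mem_filter] at hB
      exact Submodule.span_mono (Set.image_mono (Set.Iic_subset_Iic.mpr hB.2.le)) (ih B hB.2)

theorem s56eq_e_eq_zero {C : Subgroup G} (hC : ¬ IsCyclic C) (g : G) : s56eq_e C g = 0 := by
  unfold s56eq_e
  haveI : IsEmpty {x : G // Subgroup.zpowers (x⁻¹ * g * x) = C} := by
    refine ⟨fun x => hC ?_⟩
    rw [← x.2]
    infer_instance
  exact Nat.card_of_isEmpty

/-- **Artin's counting**: `|G|` is a `ℤ`-combination of the permutation characters of the
`G ⧸ B`, `B` cyclic. -/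
theorem s56eq_artin_span [Finite G] :
    (fun _ : G => (Nat.card G : ℤ)) ∈
      Submodule.span ℤ ((s56eq_F (G := G)) '' {B | IsCyclic B}) := by
  classical
  haveI : Fintype G := Fintype.ofFinite G
  haveI : Fintype (Subgroup G) := Fintype.ofFinite _
  have h1 : (fun _ : G => (Nat.card G : ℤ)) = ∑ C : Subgroup G, fun g => (s56eq_e C g : ℤ) := by
    funext g
    rw [Finset.sum_apply, ← Nat.cast_sum, s56eq_sum_e, Nat.card_eq_fintype_card]
  rw [h1]
  refine Submodule.sum_mem _ fun C _ => ?_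
  by_cases hC : IsCyclic C
  · refine Submodule.span_mono (Set.image_mono ?_) (s56eq_e_mem_span C)
    intro B hB
    rw [Set.mem_Iic] at hB
    show IsCyclic B
    haveI := hC
    have : IsCyclic (B.subgroupOf C) := inferInstance
    exact (Subgroup.subgroupOfEquivOfLe hB).isCyclic.mp this
  · have : (fun g => (s56eq_e C g : ℤ)) = 0 := by
      funext g
      rw [s56eq_e_eq_zero hC, Nat.cast_zero, Pi.zero_apply]
    rw [this]
    exact Submodule.zero_mem _

/-- **Artin's counting**, coefficient form -/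
theorem s56eq_artin [Finite G] :
    ∃ a : Subgroup G →₀ ℤ, (∀ B ∈ a.support, IsCyclic B) ∧
      ∀ g : G, (a.sum fun B c => c * (Nat.card (fixedBy (G ⧸ B) g) : ℤ)) = Nat.card G := by
  obtain ⟨l, hl, h⟩ := (Finsupp.mem_span_image_iff_linearCombination ℤ).mp (s56eq_artin_span (G := G))
  refine ⟨l, fun B hB => hl hB, fun g => ?_⟩
  have := congrFun h g
  rw [Finsupp.linearCombination_apply, Finsupp.sum, Finset.sum_apply] at this
  rw [Finsupp.sum, ← this]
  refine Finset.sum_congr rfl fun B _ => ?_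
  simp only [Pi.smul_apply, smul_eq_mul, s56eq_F, s56eq_fix]

/-! ### the `G`-set form -/

/-- fixed points on a disjoint union -/
theorem s56eq_card_fixedBy_sigma {ι : Type} [Fintype ι] (Y : ι → Type) [∀ i, MulAction G (Y i)]
    [∀ i, Finite (Y i)] (g : G) :
    Nat.card (fixedBy (Σ i, Y i) g) = ∑ i, Nat.card (fixedBy (Y i) g) := by
  rw [← Nat.card_sigma]
  refine Nat.card_congr ?_
  refine
    { toFun := fun x => ⟨x.1.1, ⟨x.1.2, ?_⟩⟩
      invFun := fun x => ⟨⟨x.1, x.2.1⟩, ?_⟩
      left_inv := fun x => rfl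
      right_inv := fun x => rfl }
  · have h := x.2
    rw [mem_fixedBy] at h ⊢
    obtain ⟨⟨i, y⟩, hx⟩ := x
    rw [Sigma.smul_mk] at h
    exact eq_of_heq (Sigma.mk.inj_iff.mp h).2
  · have h := x.2.2
    rw [mem_fixedBy] at h ⊢
    rw [Sigma.smul_mk, h]

/-- **Artin's counting**, `G`-set form: two finite disjoint unions `Xp`, `Xm` of `G ⧸ B`'s, `B`
cyclic, with `#Fix(g | Xp) = |G| + #Fix(g | Xm)` for all `g`. -/
theorem s56eq_artin_sets [Finite G] :
    ∃ (ιp ιm : Type) (_ : Fintype ιp) (_ : Fintype ιm) (Bp : ιp → Subgroup G)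
      (Bm : ιm → Subgroup G), (∀ i, IsCyclic (Bp i)) ∧ (∀ i, IsCyclic (Bm i)) ∧
      ∀ g : G, Nat.card (fixedBy (Σ i, G ⧸ Bp i) g) =
        Nat.card G + Nat.card (fixedBy (Σ i, G ⧸ Bm i) g) := by
  classical
  obtain ⟨a, ha, h⟩ := s56eq_artin (G := G)
  refine ⟨Σ B : a.support, Fin (a B.1).toNat, Σ B : a.support, Fin (-(a B.1)).toNat,
    inferInstance, inferInstance, fun i => i.1.1, fun i => i.1.1,
    fun i => ha _ i.1.2, fun i => ha _ i.1.2, fun g => ?_⟩
  rw [s56eq_card_fixedBy_sigma, s56eq_card_fixedBy_sigma, Fintype.sum_sigma, Fintype.sum_sigma]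
  have hp : ∀ (B : Subgroup G) (n : ℕ), ∑ _j : Fin n, Nat.card (fixedBy (G ⧸ B) g) =
      n * Nat.card (fixedBy (G ⧸ B) g) := fun B n => by
    rw [Finset.sum_const, Finset.card_univ, Fintype.card_fin, smul_eq_mul]
  have e1 : (∑ B : a.support, ∑ _j : Fin (a B.1).toNat, Nat.card (fixedBy (G ⧸ B.1) g)) =
      ∑ B : a.support, (a B.1).toNat * Nat.card (fixedBy (G ⧸ B.1) g) :=
    Finset.sum_congr rfl fun B _ => hp B.1 _
  have e2 : (∑ B : a.support, ∑ _j : Fin (-(a B.1)).toNat, Nat.card (fixedBy (G ⧸ B.1) g)) =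
      ∑ B : a.support, (-(a B.1)).toNat * Nat.card (fixedBy (G ⧸ B.1) g) :=
    Finset.sum_congr rfl fun B _ => hp B.1 _
  change (∑ B : a.support, ∑ _j : Fin (a B.1).toNat, Nat.card (fixedBy (G ⧸ B.1) g)) =
    Nat.card G + ∑ B : a.support, ∑ _j : Fin (-(a B.1)).toNat, Nat.card (fixedBy (G ⧸ B.1) g)
  rw [e1, e2]
  have h1 := h g
  rw [Finsupp.sum, ← Finset.sum_coe_sort] at h1
  have h2 : ((∑ B : a.support, (a B.1).toNat * Nat.card (fixedBy (G ⧸ B.1) g) : ℕ) : ℤ) =
      ((Nat.card G + ∑ B : a.support, (-(a B.1)).toNat * Nat.card (fixedBy (G ⧸ B.1) g) : ℕ) :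
        ℤ) := by
    push_cast
    rw [← h1, ← Finset.sum_add_distrib]
    refine Finset.sum_congr rfl fun B _ => ?_
    have h3 := Int.toNat_sub_toNat_neg (a B.1)
    linear_combination (Nat.card (fixedBy (G ⧸ B.1) g) : ℤ) * h3
  exact_mod_cast h2

end

end Fermat.Agent.S56
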