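/-
S56, [GW-EC] cell (EC3) [EC-IND], char-0 half (helper17): adapters of `s56eq_artin`
(`IndQ/Artin.lean`) to function-valued coefficients, in the two shapes asked by helper25:
a `Finset` sum over ANY `Fintype (Subgroup G)` instance, and a `finsum`.
Prefix `s56eq_`.
-/
import Mathlib
import Fermat.Agent.S56.GW.EC.IndQ.Artin

set_option autoImplicit false
set_option linter.style.haveILetI false

namespace Fermat.Agent.S56

open MulAction

variable {G : Type} [Group G]

/-- **Artin's counting**, coefficients a function, `Finset` sum over the subgroups -/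
theorem s56eq_artin_fintype [Finite G] [Fintype (Subgroup G)] :
    ∃ a : Subgroup G → ℤ, (∀ B, a B ≠ 0 → IsCyclic B) ∧
      ∀ g : G, ∑ B : Subgroup G, a B * (Nat.card (fixedBy (G ⧸ B) g) : ℤ) = Nat.card G := by
  obtain ⟨a, ha, h⟩ := s56eq_artin (G := G)
  refine ⟨a, fun B hB => ha B (Finsupp.mem_support_iff.mpr hB), fun g => ?_⟩
  rw [← h g, Finsupp.sum_fintype]
  intro B
  rw [zero_mul]

/-- **Artin's counting**, coefficients a function, `finsum` -/
theorem s56eq_artin_finsum [Finite G] :
    ∃ a : Subgroup G → ℤ, (∀ B, a B ≠ 0 → IsCyclic B) ∧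
      ∀ g : G, ∑ᶠ B : Subgroup G, a B * (Nat.card (fixedBy (G ⧸ B) g) : ℤ) = Nat.card G := by
  classical
  haveI : Fintype (Subgroup G) := Fintype.ofFinite _
  obtain ⟨a, ha, h⟩ := s56eq_artin_fintype (G := G)
  exact ⟨a, ha, fun g => by rw [finsum_eq_sum_of_fintype, h g]⟩

end Fermat.Agent.S56
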