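/-
S56, [GW-EC] cell (EC3) [EC-IND] (owner helper25), char-0 half, part (Q2)(i) (helper17):
SEMISIMPLE MODULES ARE DETERMINED BY THEIR HOM-DIMENSIONS.

`R` a semisimple `ℚ`-algebra, `A`, `B` `R`-modules finite-dimensional over `ℚ`,
`h(A,B) := dim_ℚ Hom_R(A,B)`.  If `h(A,A) - h(A,B) - h(B,A) + h(B,B) = 0` then `A ≃ₗ[R] B`
(`s56eq_iso_of_Q`).  Induction on `dim A + dim B`, splitting off the image of a nonzero map (no
simple modules, no Schur lemma, no characters).
Prefix `s56eq_`.
-/
import Mathlib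

set_option autoImplicit false
set_option linter.unusedSectionVars false
set_option linter.style.haveILetI false

namespace Fermat.Agent.S56

noncomputable section

variable {R : Type} [Ring R] [Algebra ℚ R]

section defs

variable (R) (A B : Type) [AddCommGroup A] [Module R A] [AddCommGroup B] [Module ℚ B] [Module R B]
  [IsScalarTower ℚ R B]

/-- `dim_ℚ Hom_R(A, B)` -/
def s56eq_h : ℕ := Module.finrank ℚ (A →ₗ[R] B)

end defs

section basic

variable {A B A' B' : Type}
  [AddCommGroup A] [Module ℚ A] [Module R A] [IsScalarTower ℚ R A]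
  [AddCommGroup B] [Module ℚ B] [Module R B] [IsScalarTower ℚ R B]
  [AddCommGroup A'] [Module ℚ A'] [Module R A'] [IsScalarTower ℚ R A']
  [AddCommGroup B'] [Module ℚ B'] [Module R B'] [IsScalarTower ℚ R B']

theorem s56eq_finite_hom [FiniteDimensional ℚ A] [FiniteDimensional ℚ B] :
    FiniteDimensional ℚ (A →ₗ[R] B) :=
  Module.Finite.of_injective (LinearMap.restrictScalarsₗ ℚ R A B ℚ)
    (LinearMap.restrictScalars_injective ℚ)

/-- `Hom_R` is functorial in isomorphisms -/
def s56eq_homCongr (e₁ : A ≃ₗ[R] A') (e₂ : B ≃ₗ[R] B') : (A →ₗ[R] B) ≃ₗ[ℚ] (A' →ₗ[R] B') where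
  toFun f := e₂.toLinearMap ∘ₗ f ∘ₗ e₁.symm.toLinearMap
  invFun f := e₂.symm.toLinearMap ∘ₗ f ∘ₗ e₁.toLinearMap
  map_add' f g := by
    ext x
    simp
  map_smul' c f := by
    ext x
    simp only [LinearMap.coe_comp, LinearEquiv.coe_coe, Function.comp_apply, LinearMap.smul_apply,
      RingHom.id_apply]
    exact map_rat_smul e₂ c _
  left_inv f := by
    ext x
    simp
  right_inv f := by
    ext x
    simp

theorem s56eq_h_congr (e₁ : A ≃ₗ[R] A') (e₂ : B ≃ₗ[R] B') :
    s56eq_h R A B = s56eq_h R A' B' :=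
  LinearEquiv.finrank_eq (s56eq_homCongr e₁ e₂)

variable [FiniteDimensional ℚ A] [FiniteDimensional ℚ B] [FiniteDimensional ℚ A']
  [FiniteDimensional ℚ B']

theorem s56eq_h_prod_left : s56eq_h R (A × A') B = s56eq_h R A B + s56eq_h R A' B := by
  unfold s56eq_h
  haveI := s56eq_finite_hom (R := R) (A := A) (B := B)
  haveI := s56eq_finite_hom (R := R) (A := A') (B := B)
  rw [← Module.finrank_prod]
  exact (LinearEquiv.finrank_eq (LinearMap.coprodEquiv ℚ)).symm

theorem s56eq_h_prod_right : s56eq_h R A (B × B') = s56eq_h R A B + s56eq_h R A B' := by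
  unfold s56eq_h
  haveI := s56eq_finite_hom (R := R) (A := A) (B := B)
  haveI := s56eq_finite_hom (R := R) (A := A) (B := B')
  rw [← Module.finrank_prod]
  exact (LinearEquiv.finrank_eq (LinearMap.prodEquiv ℚ)).symm

end basic

section Q

variable (R) (A B : Type)
  [AddCommGroup A] [Module ℚ A] [Module R A] [IsScalarTower ℚ R A]
  [AddCommGroup B] [Module ℚ B] [Module R B] [IsScalarTower ℚ R B]

/-- the defect `h(A,A) - h(A,B) - h(B,A) + h(B,B)` -/
def s56eq_Q : ℤ :=
  (s56eq_h R A A : ℤ) - s56eq_h R A B - s56eq_h R B A + s56eq_h R B B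

theorem s56eq_Q_symm : s56eq_Q R A B = s56eq_Q R B A := by
  unfold s56eq_Q
  ring

end Q

section cancel

variable {K B₁ S S' : Type}
  [AddCommGroup K] [Module ℚ K] [Module R K] [IsScalarTower ℚ R K] [FiniteDimensional ℚ K]
  [AddCommGroup B₁] [Module ℚ B₁] [Module R B₁] [IsScalarTower ℚ R B₁] [FiniteDimensional ℚ B₁]
  [AddCommGroup S] [Module ℚ S] [Module R S] [IsScalarTower ℚ R S] [FiniteDimensional ℚ S]
  [AddCommGroup S'] [Module ℚ S'] [Module R S'] [IsScalarTower ℚ R S'] [FiniteDimensional ℚ S']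

/-- a common summand cancels in the defect -/
theorem s56eq_Q_cancel (e : S ≃ₗ[R] S') :
    s56eq_Q R (K × S) (B₁ × S') = s56eq_Q R K B₁ := by
  unfold s56eq_Q
  rw [s56eq_h_prod_left, s56eq_h_prod_right, s56eq_h_prod_right,
    s56eq_h_prod_left (A := K) (A' := S) (B := B₁ × S'), s56eq_h_prod_right, s56eq_h_prod_right,
    s56eq_h_prod_left (A := B₁) (A' := S') (B := K × S), s56eq_h_prod_right, s56eq_h_prod_right,
    s56eq_h_prod_left (A := B₁) (A' := S') (B := B₁ × S'), s56eq_h_prod_right,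
    s56eq_h_prod_right]
  have r1 : s56eq_h R K S' = s56eq_h R K S := s56eq_h_congr (LinearEquiv.refl R K) e.symm
  have r2 : s56eq_h R S S' = s56eq_h R S S := s56eq_h_congr (LinearEquiv.refl R S) e.symm
  have r3 : s56eq_h R S' K = s56eq_h R S K := s56eq_h_congr e.symm (LinearEquiv.refl R K)
  have r4 : s56eq_h R S' S = s56eq_h R S S := s56eq_h_congr e.symm (LinearEquiv.refl R S)
  have r5 : s56eq_h R S' B₁ = s56eq_h R S B₁ := s56eq_h_congr e.symm (LinearEquiv.refl R B₁)
  have r6 : s56eq_h R S' S' = s56eq_h R S S := s56eq_h_congr e.symm e.symm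
  have r7 : s56eq_h R B₁ S' = s56eq_h R B₁ S := s56eq_h_congr (LinearEquiv.refl R B₁) e.symm
  rw [r1, r2, r3, r4, r5, r6, r7]
  push_cast
  ring

end cancel

section main

variable [IsSemisimpleRing R]

theorem s56eq_finite_sub {A : Type} [AddCommGroup A] [Module ℚ A] [Module R A]
    [IsScalarTower ℚ R A] [FiniteDimensional ℚ A] (K : Submodule R A) :
    FiniteDimensional ℚ K :=
  Module.Finite.of_injective (K.subtype.restrictScalars ℚ) K.injective_subtype

/-- **semisimple modules with vanishing defect are isomorphic** -/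
theorem s56eq_iso_of_Q : ∀ (n : ℕ) (A B : Type)
    [AddCommGroup A] [Module ℚ A] [Module R A] [IsScalarTower ℚ R A] [FiniteDimensional ℚ A]
    [AddCommGroup B] [Module ℚ B] [Module R B] [IsScalarTower ℚ R B] [FiniteDimensional ℚ B],
    Module.finrank ℚ A + Module.finrank ℚ B = n → s56eq_Q R A B = 0 →
    Nonempty (A ≃ₗ[R] B) := by
  intro n
  induction n using Nat.strong_induction_on with
  | _ n ih =>
  -- the step: a nonzero map `A → B` and the induction hypothesis give an isomorphism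
  have step : ∀ (A B : Type)
      [AddCommGroup A] [Module ℚ A] [Module R A] [IsScalarTower ℚ R A] [FiniteDimensional ℚ A]
      [AddCommGroup B] [Module ℚ B] [Module R B] [IsScalarTower ℚ R B] [FiniteDimensional ℚ B],
      Module.finrank ℚ A + Module.finrank ℚ B = n → s56eq_Q R A B = 0 →
      (∃ φ : A →ₗ[R] B, φ ≠ 0) → Nonempty (A ≃ₗ[R] B) := by
    intro A B _ _ _ _ _ _ _ _ _ _ hn hQ ⟨φ, hφ⟩
    obtain ⟨A', hA'⟩ := exists_isCompl (LinearMap.ker φ)
    obtain ⟨B₁, hB₁⟩ := exists_isCompl (LinearMap.range φ)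
    haveI := s56eq_finite_sub (LinearMap.ker φ)
    haveI := s56eq_finite_sub A'
    haveI := s56eq_finite_sub (LinearMap.range φ)
    haveI := s56eq_finite_sub B₁
    let eA : A ≃ₗ[R] (LinearMap.ker φ) × A' := (Submodule.prodEquivOfIsCompl _ _ hA').symm
    let eB : B ≃ₗ[R] B₁ × (LinearMap.range φ) := (Submodule.prodEquivOfIsCompl _ _ hB₁.symm).symm
    let eS : A' ≃ₗ[R] LinearMap.range φ :=
      (Submodule.quotientEquivOfIsCompl _ _ hA').symm ≪≫ₗ φ.quotKerEquivRange
    have hQ' : s56eq_Q R (LinearMap.ker φ) B₁ = 0 := by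
      rw [← s56eq_Q_cancel (R := R) eS, ← hQ]
      unfold s56eq_Q
      rw [s56eq_h_congr eA eA, s56eq_h_congr eA eB, s56eq_h_congr eB eA, s56eq_h_congr eB eB]
    -- dimensions
    have d1 : Module.finrank ℚ A = Module.finrank ℚ (LinearMap.ker φ) + Module.finrank ℚ A' := by
      rw [← Module.finrank_prod]
      exact LinearEquiv.finrank_eq (eA.restrictScalars ℚ)
    have d2 : Module.finrank ℚ B = Module.finrank ℚ B₁ + Module.finrank ℚ (LinearMap.range φ) := by
      rw [← Module.finrank_prod]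
      exact LinearEquiv.finrank_eq (eB.restrictScalars ℚ)
    have d3 : Module.finrank ℚ A' = Module.finrank ℚ (LinearMap.range φ) :=
      LinearEquiv.finrank_eq (eS.restrictScalars ℚ)
    have d4 : 0 < Module.finrank ℚ (LinearMap.range φ) := by
      rw [Module.finrank_pos_iff_exists_ne_zero]
      have : ∃ x, φ x ≠ 0 := by
        by_contra h
        simp only [not_exists, not_not] at h
        exact hφ (LinearMap.ext h)
      obtain ⟨x, hx⟩ := this
      exact ⟨⟨φ x, LinearMap.mem_range_self φ x⟩, fun h => hx (congrArg Subtype.val h)⟩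
    obtain ⟨eK⟩ := ih (Module.finrank ℚ (LinearMap.ker φ) + Module.finrank ℚ B₁) (by omega)
      (LinearMap.ker φ) B₁ rfl hQ'
    exact ⟨eA ≪≫ₗ (LinearEquiv.prodCongr eK eS) ≪≫ₗ eB.symm⟩
  intro A B _ _ _ _ _ _ _ _ _ _ hn hQ
  by_cases hAB : ∃ φ : A →ₗ[R] B, φ ≠ 0
  · exact step A B hn hQ hAB
  by_cases hBA : ∃ φ : B →ₗ[R] A, φ ≠ 0
  · obtain ⟨e⟩ := step B A (by omega) (by rw [s56eq_Q_symm]; exact hQ) hBA
    exact ⟨e.symm⟩
  -- no maps at all: both modules vanish
  simp only [not_exists, not_not] at hAB hBA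
  haveI : Subsingleton (A →ₗ[R] B) := ⟨fun f g => by rw [hAB f, hAB g]⟩
  haveI : Subsingleton (B →ₗ[R] A) := ⟨fun f g => by rw [hBA f, hBA g]⟩
  have h1 : s56eq_h R A B = 0 := Module.finrank_zero_of_subsingleton
  have h2 : s56eq_h R B A = 0 := Module.finrank_zero_of_subsingleton
  unfold s56eq_Q at hQ
  rw [h1, h2] at hQ
  have h3 : s56eq_h R A A = 0 := by
    have : (0 : ℤ) ≤ s56eq_h R B B := Int.natCast_nonneg _
    have : (0 : ℤ) ≤ s56eq_h R A A := Int.natCast_nonneg _
    push_cast at hQ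
    omega
  have h4 : s56eq_h R B B = 0 := by
    have : (0 : ℤ) ≤ s56eq_h R A A := Int.natCast_nonneg _
    push_cast at hQ
    omega
  haveI := s56eq_finite_hom (R := R) (A := A) (B := A)
  haveI := s56eq_finite_hom (R := R) (A := B) (B := B)
  haveI : Subsingleton (A →ₗ[R] A) := Module.finrank_zero_iff.mp h3
  haveI : Subsingleton (B →ₗ[R] B) := Module.finrank_zero_iff.mp h4
  haveI : Subsingleton A := ⟨fun x y => by
    have := Subsingleton.elim (LinearMap.id : A →ₗ[R] A) 0
    have hx := LinearMap.congr_fun this x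
    have hy := LinearMap.congr_fun this y
    simp only [LinearMap.id_coe, id_eq, LinearMap.zero_apply] at hx hy
    rw [hx, hy]⟩
  haveI : Subsingleton B := ⟨fun x y => by
    have := Subsingleton.elim (LinearMap.id : B →ₗ[R] B) 0
    have hx := LinearMap.congr_fun this x
    have hy := LinearMap.congr_fun this y
    simp only [LinearMap.id_coe, id_eq, LinearMap.zero_apply] at hx hy
    rw [hx, hy]⟩
  exact ⟨LinearEquiv.ofSubsingleton A B⟩

end main

end

end Fermat.Agent.S56
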