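/-
S56, [GW-EC] cell (EC3) [EC-IND] (owner helper25), char-0 half, part (Q2) (helper17):
FINITE `G`-SETS WITH THE SAME FIXED POINT COUNTS HAVE ISOMORPHIC RATIONAL PERMUTATION MODULES,
and the isomorphism can be given by a `G`-invariant INTEGER matrix.

* `s56eq_perm X`     : the permutation representation of `G` on `X → ℚ`;
* `s56eq_char_perm`  : its character is `g ↦ #Fix(g | X)`;
* `s56eq_h_perm`     : `dim Hom_G(ℚ[X], ℚ[Y]) = |G|⁻¹ ∑_g #Fix(g|Y) #Fix(g⁻¹|X)`
                       (Mathlib's `card_inv_mul_sum_char_mul_char_eq_finrank`);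
* `s56eq_perm_equiv` : same fixed point counts ⟹ `ℚ[X] ≃ ℚ[X']` over `ℚ[G]` (`s56eq_iso_of_Q`);
* `s56eq_perm_iso`   : the integer matrix form.
Prefix `s56eq_`.
-/
import Mathlib
import Fermat.Agent.S56.GW.EC.IndQ.Semi

set_option autoImplicit false
set_option linter.unusedSectionVars false
set_option linter.style.haveILetI false

namespace Fermat.Agent.S56

open MulAction Representation

noncomputable section

variable {G : Type} [Group G]

/-- the permutation representation on `X → ℚ`: `(g v) x = v (g⁻¹ x)` -/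
def s56eq_perm (X : Type) [MulAction G X] : Representation ℚ G (X → ℚ) where
  toFun g := LinearMap.funLeft ℚ ℚ (fun x => g⁻¹ • x)
  map_one' := by
    ext v x
    simp
  map_mul' g h := by
    ext v x
    simp [mul_smul]

@[simp] theorem s56eq_perm_apply (X : Type) [MulAction G X] (g : G) (v : X → ℚ) (x : X) :
    s56eq_perm X g v x = v (g⁻¹ • x) := rfl

theorem s56eq_perm_single (X : Type) [MulAction G X] [DecidableEq X] (g : G) (x : X) :
    s56eq_perm X g (Pi.single x 1) = Pi.single (g • x) 1 := by
  funext y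
  rw [s56eq_perm_apply]
  by_cases h : y = g • x
  · subst h
    rw [inv_smul_smul, Pi.single_eq_same, Pi.single_eq_same]
  · rw [Pi.single_eq_of_ne h, Pi.single_eq_of_ne]
    intro h'
    exact h (by rw [← h', smul_inv_smul])

/-- the permutation character counts fixed points -/
theorem s56eq_char_perm (X : Type) [Fintype X] [MulAction G X] (g : G) :
    (s56eq_perm (G := G) X).character g = (Nat.card (fixedBy X g) : ℚ) := by
  classical
  unfold Representation.character
  rw [LinearMap.trace_eq_matrix_trace ℚ (Pi.basisFun ℚ X), Matrix.trace]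
  simp only [Matrix.diag_apply, LinearMap.toMatrix_apply, Pi.basisFun_apply, Pi.basisFun_repr,
    s56eq_perm_single]
  rw [Nat.card_eq_fintype_card, Fintype.card_subtype, Finset.card_filter, Nat.cast_sum]
  refine Finset.sum_congr rfl fun x _ => ?_
  simp only [mem_fixedBy, Pi.single_apply]
  by_cases h : g • x = x
  · rw [if_pos h, if_pos h.symm, Nat.cast_one]
  · rw [if_neg h, if_neg (fun h' => h h'.symm), Nat.cast_zero]

/-- `dim Hom_{ℚ[G]}(ℚ[X], ℚ[Y])` by characters -/
theorem s56eq_h_perm [Fintype G] (X Y : Type) [Fintype X] [Fintype Y] [MulAction G X]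
    [MulAction G Y] :
    (s56eq_h (MonoidAlgebra ℚ G) (s56eq_perm (G := G) X).asModule
      (s56eq_perm (G := G) Y).asModule : ℚ) =
      (Nat.card G : ℚ)⁻¹ * ∑ g : G, (Nat.card (fixedBy Y g) : ℚ) * (Nat.card (fixedBy X g⁻¹) : ℚ) := by
  haveI : Invertible (Nat.card G : ℚ) :=
    invertibleOfNonzero (Nat.cast_ne_zero.mpr Nat.card_pos.ne')
  have h1 := Representation.card_inv_mul_sum_char_mul_char_eq_finrank
    (s56eq_perm (G := G) X) (s56eq_perm (G := G) Y)
  unfold s56eq_h
  rw [← LinearEquiv.finrank_eq (IntertwiningMap.equivLinearMapAsModule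
    (s56eq_perm (G := G) X) (s56eq_perm (G := G) Y)), ← h1]
  congr 1
  refine Finset.sum_congr rfl fun g _ => ?_
  rw [s56eq_char_perm, s56eq_char_perm]

/-- **same fixed point counts ⟹ isomorphic rational permutation modules** -/
theorem s56eq_perm_equiv [Finite G] (X X' : Type) [Fintype X] [Fintype X'] [MulAction G X]
    [MulAction G X'] (h : ∀ g : G, Nat.card (fixedBy X g) = Nat.card (fixedBy X' g)) :
    Nonempty ((s56eq_perm (G := G) X).asModule ≃ₗ[MonoidAlgebra ℚ G]
      (s56eq_perm (G := G) X').asModule) := by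
  haveI : Fintype G := Fintype.ofFinite G
  haveI : NeZero (Nat.card G) := ⟨Nat.card_pos.ne'⟩
  have e1 : s56eq_h (MonoidAlgebra ℚ G) (s56eq_perm (G := G) X).asModule
      (s56eq_perm (G := G) X').asModule =
      s56eq_h (MonoidAlgebra ℚ G) (s56eq_perm (G := G) X).asModule
        (s56eq_perm (G := G) X).asModule := by
    apply Nat.cast_injective (R := ℚ)
    rw [s56eq_h_perm, s56eq_h_perm]
    simp only [h]
  have e2 : s56eq_h (MonoidAlgebra ℚ G) (s56eq_perm (G := G) X').asModule
      (s56eq_perm (G := G) X).asModule =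
      s56eq_h (MonoidAlgebra ℚ G) (s56eq_perm (G := G) X).asModule
        (s56eq_perm (G := G) X).asModule := by
    apply Nat.cast_injective (R := ℚ)
    rw [s56eq_h_perm, s56eq_h_perm]
    simp only [h]
  have e3 : s56eq_h (MonoidAlgebra ℚ G) (s56eq_perm (G := G) X').asModule
      (s56eq_perm (G := G) X').asModule =
      s56eq_h (MonoidAlgebra ℚ G) (s56eq_perm (G := G) X).asModule
        (s56eq_perm (G := G) X).asModule := by
    apply Nat.cast_injective (R := ℚ)
    rw [s56eq_h_perm, s56eq_h_perm]
    simp only [h]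
  refine s56eq_iso_of_Q (R := MonoidAlgebra ℚ G) _ _ _ rfl ?_
  unfold s56eq_Q
  rw [e1, e2, e3]
  ring

/-- **same fixed point counts ⟹ a `G`-invariant integer matrix `X' × X` with injective
rational linear map** -/
theorem s56eq_perm_iso [Finite G] (X X' : Type) [Fintype X] [Fintype X'] [MulAction G X]
    [MulAction G X'] (h : ∀ g : G, Nat.card (fixedBy X g) = Nat.card (fixedBy X' g)) :
    ∃ A : X' → X → ℤ, (∀ (g : G) (x' : X') (x : X), A (g • x') (g • x) = A x' x) ∧
      Function.Injective (fun (v : X → ℚ) (x' : X') => ∑ x, (A x' x : ℚ) * v x) := by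
  classical
  obtain ⟨e⟩ := s56eq_perm_equiv (G := G) X X' h
  let E : (X → ℚ) →ₗ[ℚ] (X' → ℚ) :=
    (s56eq_perm (G := G) X').asModuleEquiv.toLinearMap ∘ₗ
      (e.toLinearMap.restrictScalars ℚ) ∘ₗ
        (s56eq_perm (G := G) X).asModuleEquiv.symm.toLinearMap
  have hEinj : Function.Injective E := by
    intro v w hvw
    have h1 := (s56eq_perm (G := G) X').asModuleEquiv.injective hvw
    have h2 := e.injective h1
    exact (s56eq_perm (G := G) X).asModuleEquiv.symm.injective h2
  have hEeq : ∀ (g : G) (v : X → ℚ), E (s56eq_perm X g v) = s56eq_perm X' g (E v) := by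
    intro g v
    show (s56eq_perm (G := G) X').asModuleEquiv
      (e ((s56eq_perm (G := G) X).asModuleEquiv.symm (s56eq_perm X g v))) = _
    rw [asModuleEquiv_symm_map_rho, map_smul, asModuleEquiv_map_smul, asAlgebraHom_of]
    rfl
  let M : X' → X → ℚ := fun x' x => E (Pi.single x 1) x'
  have hM : ∀ (g : G) (x' : X') (x : X), M (g • x') (g • x) = M x' x := by
    intro g x' x
    show E (Pi.single (g • x) 1) (g • x') = E (Pi.single x 1) x'
    rw [← s56eq_perm_single, hEeq, s56eq_perm_apply, inv_smul_smul]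
  have hEM : ∀ (v : X → ℚ) (x' : X'), E v x' = ∑ x, M x' x * v x := by
    intro v x'
    have hv : v = ∑ x, v x • (Pi.single x (1 : ℚ) : X → ℚ) := by
      funext y
      simp [Finset.sum_apply, Pi.single_apply]
    conv_lhs => rw [hv]
    rw [map_sum, Finset.sum_apply]
    refine Finset.sum_congr rfl fun x _ => ?_
    rw [map_smul, Pi.smul_apply, smul_eq_mul, mul_comm]
  -- clear denominators
  obtain ⟨b, hb⟩ := IsLocalization.exist_integer_multiples (nonZeroDivisors ℤ)
    (Finset.univ : Finset (X' × X)) (fun i => M i.1 i.2)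
  choose A hA using fun (i : X' × X) => hb i (Finset.mem_univ i)
  have hb0 : ((b : ℤ) : ℚ) ≠ 0 := Int.cast_ne_zero.mpr (nonZeroDivisors.ne_zero b.2)
  have hA' : ∀ (x' : X') (x : X), ((A (x', x) : ℤ) : ℚ) = ((b : ℤ) : ℚ) * M x' x := by
    intro x' x
    have := hA (x', x)
    simpa [Algebra.smul_def] using this
  refine ⟨fun x' x => A (x', x), fun g x' x => ?_, fun v w hvw => ?_⟩
  · apply Int.cast_injective (α := ℚ)
    rw [hA', hA', hM]
  · apply hEinj
    funext x'
    have := congrFun hvw x'
    simp only [hA', mul_assoc, ← Finset.mul_sum] at this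
    rw [hEM, hEM]
    exact mul_left_cancel₀ hb0 this

end

end Fermat.Agent.S56
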