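import Mathlib

/-!
# S56, node [GW-EC], cell (EC3), char-0 half: `Hom` between permutation modules (prefix `s56em_`)

`s56em_P G X` is the permutation module `ℚ^X` of a `G`-set `X`, as a module over `ℚ[G]`.
`s56em_finrank_hom`: `dim_ℚ Hom_{ℚ[G]}(ℚ^X, ℚ^Y) * |G| = ∑_g #Fix(g|X) * #Fix(g|Y)`
(`Hom` = invariant matrices = functions on the orbits of `G` on `X × Y`, then Burnside).
-/

set_option autoImplicit false
set_option linter.unusedSectionVars false
set_option linter.style.haveILetI false

namespace Fermat.Agent.S56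

open MonoidAlgebra Module

section Perm

variable (G : Type) [Group G] (X : Type) [MulAction G X]

/-- The permutation representation of `G` on the functions `X → ℚ`. -/
noncomputable def s56em_rho : Representation ℚ G (X → ℚ) where
  toFun g := LinearMap.funLeft ℚ ℚ (fun x => g⁻¹ • x)
  map_one' := LinearMap.ext fun v => funext fun x => by simp [LinearMap.funLeft_apply]
  map_mul' g h := LinearMap.ext fun v => funext fun x => by
    simp [LinearMap.funLeft_apply, mul_smul]

@[simp]
theorem s56em_rho_apply (g : G) (v : X → ℚ) (x : X) : s56em_rho G X g v x = v (g⁻¹ • x) := rfl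

/-- The permutation module `ℚ^X` as a `ℚ[G]`-module. -/
abbrev s56em_P : Type := (s56em_rho G X).asModule

variable {G X}

/-- Evaluation of an element of the permutation module. -/
noncomputable def s56em_ev (v : s56em_P G X) (x : X) : ℚ := (s56em_rho G X).asModuleEquiv v x

/-- The element of the permutation module attached to a function. -/
noncomputable def s56em_mk (v : X → ℚ) : s56em_P G X := (s56em_rho G X).asModuleEquiv.symm v

@[simp]
theorem s56em_ev_mk (v : X → ℚ) (x : X) : s56em_ev (s56em_mk (G := G) v) x = v x := rfl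

@[simp]
theorem s56em_mk_ev (v : s56em_P G X) : s56em_mk (fun x => s56em_ev v x) = v := rfl

theorem s56em_ext {v w : s56em_P G X} (h : ∀ x, s56em_ev v x = s56em_ev w x) : v = w :=
  (s56em_rho G X).asModuleEquiv.injective (funext h)

@[simp]
theorem s56em_ev_add (v w : s56em_P G X) (x : X) :
    s56em_ev (v + w) x = s56em_ev v x + s56em_ev w x := rfl

@[simp]
theorem s56em_ev_smul (c : ℚ) (v : s56em_P G X) (x : X) :
    s56em_ev (c • v) x = c * s56em_ev v x := rfl

@[simp]
theorem s56em_ev_zero (x : X) : s56em_ev (0 : s56em_P G X) x = 0 := rfl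

theorem s56em_ev_sum {ι : Type} (s : Finset ι) (f : ι → s56em_P G X) (x : X) :
    s56em_ev (∑ i ∈ s, f i) x = ∑ i ∈ s, s56em_ev (f i) x := by
  classical
  induction s using Finset.induction_on with
  | empty => simp
  | insert a s ha ih => rw [Finset.sum_insert ha, Finset.sum_insert ha, s56em_ev_add, ih]

@[simp]
theorem s56em_ev_single_smul (g : G) (v : s56em_P G X) (x : X) :
    s56em_ev (MonoidAlgebra.single g (1 : ℚ) • v) x = s56em_ev v (g⁻¹ • x) := by
  rw [Representation.single_smul, one_smul]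
  rfl

open Classical in
/-- The basis vector `δ_x`. -/
noncomputable def s56em_delta (x : X) : s56em_P G X := s56em_mk (Pi.single x 1)

open Classical in
theorem s56em_ev_delta (x y : X) : s56em_ev (s56em_delta (G := G) x) y = if y = x then 1 else 0 := by
  unfold s56em_delta
  rw [s56em_ev_mk, Pi.single_apply]

theorem s56em_single_smul_delta (g : G) (x : X) :
    MonoidAlgebra.single g (1 : ℚ) • s56em_delta (G := G) x = s56em_delta (g • x) := by
  classical
  refine s56em_ext fun y => ?_
  rw [s56em_ev_single_smul, s56em_ev_delta, s56em_ev_delta]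
  simp only [inv_smul_eq_iff]

theorem s56em_eq_sum [Fintype X] (v : s56em_P G X) :
    v = ∑ x, s56em_ev v x • s56em_delta (G := G) x := by
  classical
  refine s56em_ext fun y => ?_
  rw [s56em_ev_sum]
  simp only [s56em_ev_smul, s56em_ev_delta, mul_ite, mul_one, mul_zero]
  rw [Finset.sum_eq_single y (fun _ _ h => by rw [if_neg (Ne.symm h)]) (by simp)]
  simp

end Perm

section Hom

variable {G : Type} [Group G] {X Y : Type} [MulAction G X] [MulAction G Y]

/-- The matrix coefficients of a `ℚ[G]`-linear map between permutation modules are invariant. -/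
theorem s56em_coeff_invariant (φ : s56em_P G X →ₗ[MonoidAlgebra ℚ G] s56em_P G Y) (g : G) (x : X)
    (y : Y) : s56em_ev (φ (s56em_delta (g • x))) (g • y) = s56em_ev (φ (s56em_delta x)) y := by
  rw [← s56em_single_smul_delta, map_smul, s56em_ev_single_smul, inv_smul_smul]

theorem s56em_hom_apply [Fintype X] (φ : s56em_P G X →ₗ[MonoidAlgebra ℚ G] s56em_P G Y)
    (v : s56em_P G X) (y : Y) :
    s56em_ev (φ v) y = ∑ x, s56em_ev (φ (s56em_delta x)) y * s56em_ev v x := by
  conv_lhs => rw [s56em_eq_sum v]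
  have h : ∀ (c : ℚ) (w : s56em_P G X), φ (c • w) = c • φ w := fun c w => by
    rw [← algebraMap_smul (MonoidAlgebra ℚ G) c w, map_smul, algebraMap_smul]
  rw [map_sum, s56em_ev_sum]
  refine Finset.sum_congr rfl fun x _ => ?_
  rw [h, s56em_ev_smul, mul_comm]

variable (G X Y) in
/-- The orbits of `G` on `X × Y`. -/
abbrev s56em_Orb : Type := MulAction.orbitRel.Quotient G (X × Y)

theorem s56em_out_spec (x : X) (y : Y) :
    ∃ g : G, (Quotient.out (Quotient.mk'' (x, y) : s56em_Orb G X Y)) = (g • x, g • y) := by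
  have h : (Quotient.mk'' (Quotient.out (Quotient.mk'' (x, y) : s56em_Orb G X Y)) :
      s56em_Orb G X Y) = Quotient.mk'' (x, y) := Quotient.out_eq' _
  have h2 := Quotient.exact' h
  rw [MulAction.orbitRel_apply] at h2
  obtain ⟨g, hg⟩ := h2
  exact ⟨g, hg.symm⟩

/-- `Hom → functions on orbits`. -/
noncomputable def s56em_toOrb :
    (s56em_P G X →ₗ[MonoidAlgebra ℚ G] s56em_P G Y) →ₗ[ℚ] (s56em_Orb G X Y → ℚ) where
  toFun φ ω := s56em_ev (φ (s56em_delta ω.out.1)) ω.out.2
  map_add' _ _ := rfl
  map_smul' _ _ := rfl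

theorem s56em_toOrb_apply (φ : s56em_P G X →ₗ[MonoidAlgebra ℚ G] s56em_P G Y)
    (ω : s56em_Orb G X Y) :
    s56em_toOrb φ ω = s56em_ev (φ (s56em_delta ω.out.1)) ω.out.2 := rfl

theorem s56em_toOrb_injective [Fintype X] :
    Function.Injective (s56em_toOrb (G := G) (X := X) (Y := Y)) := by
  intro φ ψ h
  refine LinearMap.ext fun v => s56em_ext fun y => ?_
  rw [s56em_hom_apply, s56em_hom_apply]
  refine Finset.sum_congr rfl fun x _ => ?_
  congr 1
  obtain ⟨g, hg⟩ := s56em_out_spec (G := G) x y
  have h1 := congrFun h (Quotient.mk'' (x, y))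
  rw [s56em_toOrb_apply, s56em_toOrb_apply, hg] at h1
  simpa only [s56em_coeff_invariant] using h1

/-- The `ℚ`-linear map attached to a function on the orbits. -/
noncomputable def s56em_ofOrbLin [Fintype X] (m : s56em_Orb G X Y → ℚ) :
    s56em_P G X →ₗ[ℚ] s56em_P G Y where
  toFun v := s56em_mk fun y => ∑ x, m (Quotient.mk'' (x, y)) * s56em_ev v x
  map_add' v w := s56em_ext fun y => by
    simp only [s56em_ev_mk, s56em_ev_add, mul_add, Finset.sum_add_distrib]
  map_smul' c v := s56em_ext fun y => by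
    simp only [s56em_ev_mk, s56em_ev_smul, RingHom.id_apply, Finset.mul_sum]
    refine Finset.sum_congr rfl fun x _ => ?_
    ring

theorem s56em_ofOrbLin_comm [Fintype X] (m : s56em_Orb G X Y → ℚ) (g : G) (v : s56em_P G X) :
    s56em_ofOrbLin m (MonoidAlgebra.single g (1 : ℚ) • v) =
      MonoidAlgebra.single g (1 : ℚ) • s56em_ofOrbLin m v := by
  refine s56em_ext fun y => ?_
  rw [s56em_ev_single_smul]
  simp only [s56em_ofOrbLin, LinearMap.coe_mk, AddHom.coe_mk, s56em_ev_mk, s56em_ev_single_smul]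
  refine Fintype.sum_equiv (MulAction.toPerm g⁻¹) _ _ fun x => ?_
  simp only [MulAction.toPerm_apply]
  congr 1
  refine congrArg m ?_
  refine Quotient.sound' ?_
  rw [MulAction.orbitRel_apply]
  exact ⟨g, by simp [Prod.smul_mk]⟩

/-- `functions on orbits → Hom`. -/
noncomputable def s56em_ofOrb [Fintype X] :
    (s56em_Orb G X Y → ℚ) →ₗ[ℚ] (s56em_P G X →ₗ[MonoidAlgebra ℚ G] s56em_P G Y) where
  toFun m := MonoidAlgebra.equivariantOfLinearOfComm (s56em_ofOrbLin m) (s56em_ofOrbLin_comm m)
  map_add' m m' := LinearMap.ext fun v => s56em_ext fun y => by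
    simp only [MonoidAlgebra.equivariantOfLinearOfComm_apply, LinearMap.add_apply, s56em_ev_add]
    simp only [s56em_ofOrbLin, LinearMap.coe_mk, AddHom.coe_mk, s56em_ev_mk, Pi.add_apply,
      add_mul, Finset.sum_add_distrib]
  map_smul' c m := LinearMap.ext fun v => s56em_ext fun y => by
    simp only [MonoidAlgebra.equivariantOfLinearOfComm_apply, LinearMap.smul_apply,
      s56em_ev_smul, RingHom.id_apply]
    simp only [s56em_ofOrbLin, LinearMap.coe_mk, AddHom.coe_mk, s56em_ev_mk, Pi.smul_apply,
      smul_eq_mul, Finset.mul_sum]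
    refine Finset.sum_congr rfl fun x _ => ?_
    ring

theorem s56em_ofOrb_coeff [Fintype X] (m : s56em_Orb G X Y → ℚ) (x : X) (y : Y) :
    s56em_ev (s56em_ofOrb m (s56em_delta x)) y = m (Quotient.mk'' (x, y)) := by
  classical
  simp only [s56em_ofOrb, LinearMap.coe_mk, AddHom.coe_mk,
    MonoidAlgebra.equivariantOfLinearOfComm_apply, s56em_ofOrbLin, s56em_ev_mk, s56em_ev_delta]
  rw [Finset.sum_eq_single x (fun _ _ h => by rw [if_neg h, mul_zero]) (by simp)]
  simp

theorem s56em_ofOrb_injective [Fintype X] :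
    Function.Injective (s56em_ofOrb (G := G) (X := X) (Y := Y)) := by
  intro m m' h
  funext ω
  induction ω using Quotient.inductionOn' with
  | h a =>
    obtain ⟨x, y⟩ := a
    rw [← s56em_ofOrb_coeff m x y, ← s56em_ofOrb_coeff m' x y, h]

theorem s56em_finrank_hom_eq [Fintype X] [Finite Y] :
    Module.finrank ℚ (s56em_P G X →ₗ[MonoidAlgebra ℚ G] s56em_P G Y) =
      Nat.card (s56em_Orb G X Y) := by
  haveI : Finite (s56em_Orb G X Y) := Quotient.finite _
  haveI := Fintype.ofFinite (s56em_Orb G X Y)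
  haveI : Module.Finite ℚ (s56em_P G X →ₗ[MonoidAlgebra ℚ G] s56em_P G Y) :=
    Module.Finite.of_injective s56em_toOrb s56em_toOrb_injective
  rw [Nat.card_eq_fintype_card, ← Module.finrank_fintype_fun_eq_card (R := ℚ)]
  exact le_antisymm (LinearMap.finrank_le_finrank_of_injective s56em_toOrb_injective)
    (LinearMap.finrank_le_finrank_of_injective s56em_ofOrb_injective)

/-- The fixed points of `g` on `X × Y`. -/
def s56em_fixedProd (g : G) :
    MulAction.fixedBy (X × Y) g ≃ MulAction.fixedBy X g × MulAction.fixedBy Y g where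
  toFun a := ⟨⟨a.1.1, congrArg Prod.fst a.2⟩, ⟨a.1.2, congrArg Prod.snd a.2⟩⟩
  invFun b := ⟨(b.1.1, b.2.1), Prod.ext b.1.2 b.2.2⟩
  left_inv _ := rfl
  right_inv _ := rfl

/-- **Burnside**: `dim Hom(ℚ^X, ℚ^Y) * |G| = ∑_g #Fix(g|X) * #Fix(g|Y)`. -/
theorem s56em_finrank_hom [Fintype G] [Fintype X] [Finite Y] :
    Module.finrank ℚ (s56em_P G X →ₗ[MonoidAlgebra ℚ G] s56em_P G Y) * Nat.card G =
      ∑ g : G, Nat.card (MulAction.fixedBy X g) * Nat.card (MulAction.fixedBy Y g) := by
  classical
  haveI : Finite (s56em_Orb G X Y) := Quotient.finite _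
  haveI := Fintype.ofFinite (s56em_Orb G X Y)
  haveI := Fintype.ofFinite Y
  rw [s56em_finrank_hom_eq, Nat.card_eq_fintype_card, Nat.card_eq_fintype_card,
    ← MulAction.sum_card_fixedBy_eq_card_orbits_mul_card_group G (X × Y)]
  refine Finset.sum_congr rfl fun g _ => ?_
  rw [← Nat.card_eq_fintype_card, Nat.card_congr (s56em_fixedProd g), Nat.card_prod]

end Hom

end Fermat.Agent.S56
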