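import Mathlib
import Fermat.Agent.S56.GW.EC.IndQ.HomOrb

/-!
# S56, node [GW-EC], cell (EC3), char-0 half: equal marks ⟹ invariant integral matrix
(prefix `s56em_`)

`s56em_matrix_of_iso`: a `ℚ[G]`-isomorphism `ℚ^X ≃ ℚ^{X'}` gives a `G`-invariant integer matrix
`A : X' → X → ℤ` whose `ℚ`-linear map `ℚ^X → ℚ^{X'}` is injective.
`s56em_hom_balance`: if `X`, `X'` have the same number of fixed points for every `g`, the four
`Hom`-dimensions between `ℚ^X` and `ℚ^{X'}` balance.
`s56em_matrix_of_semi`: the matrix statement, given the abstract semisimple-module lemma.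
-/

set_option autoImplicit false
set_option linter.unusedSectionVars false
set_option linter.style.haveILetI false

namespace Fermat.Agent.S56

open MonoidAlgebra Module

section Matrix

variable {G : Type} [Group G] {X X' : Type} [MulAction G X] [MulAction G X']

theorem s56em_matrix_of_iso [Fintype X] [Finite X']
    (e : s56em_P G X ≃ₗ[MonoidAlgebra ℚ G] s56em_P G X') :
    ∃ A : X' → X → ℤ, (∀ (g : G) (x' : X') (x : X), A (g • x') (g • x) = A x' x) ∧
      Function.Injective (fun (v : X → ℚ) (x' : X') => ∑ x, (A x' x : ℚ) * v x) := by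
  classical
  -- the rational matrix
  set M : X' × X → ℚ := fun a => s56em_ev (e (s56em_delta a.2)) a.1 with hM
  have hMinv : ∀ (g : G) (x' : X') (x : X), M (g • x', g • x) = M (x', x) := fun g x' x =>
    s56em_coeff_invariant e.toLinearMap g x x'
  obtain ⟨b, hb⟩ := IsLocalization.exist_integer_multiples_of_finite (nonZeroDivisors ℤ) M
  have hb0 : ((b : ℤ) : ℚ) ≠ 0 := by
    have := nonZeroDivisors.coe_ne_zero b
    exact_mod_cast this
  choose A hA using hb
  have hA' : ∀ a : X' × X, (A a : ℚ) = (b : ℤ) * M a := by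
    intro a
    have := hA a
    rw [zsmul_eq_mul] at this
    rw [← this]
    rfl
  refine ⟨fun x' x => A (x', x), ?_, ?_⟩
  · intro g x' x
    have h1 := hA' (g • x', g • x)
    have h2 := hA' (x', x)
    rw [hMinv] at h1
    exact_mod_cast h1.trans h2.symm
  · intro v w hvw
    have key : ∀ u : X → ℚ, (fun x' : X' => ∑ x, ((A (x', x) : ℤ) : ℚ) * u x) =
        fun x' => ((b : ℤ) : ℚ) * s56em_ev (e (s56em_mk u)) x' := by
      intro u
      funext x'
      have hx := s56em_hom_apply (e : s56em_P G X →ₗ[MonoidAlgebra ℚ G] s56em_P G X')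
        (s56em_mk u) x'
      simp only [LinearEquiv.coe_coe] at hx
      rw [hx, Finset.mul_sum]
      refine Finset.sum_congr rfl fun x _ => ?_
      rw [hA' (x', x), s56em_ev_mk]
      simp only [hM]
      ring
    have h1 : (fun x' : X' => ((b : ℤ) : ℚ) * s56em_ev (e (s56em_mk v)) x') =
        fun x' => ((b : ℤ) : ℚ) * s56em_ev (e (s56em_mk w)) x' := by
      rw [← key v, ← key w]
      exact hvw
    have h2 : e (s56em_mk v) = e (s56em_mk w) := by
      refine s56em_ext fun x' => ?_
      have := congrFun h1 x'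
      exact mul_left_cancel₀ hb0 this
    have h3 := e.injective h2
    funext x
    have := congrArg (fun u => s56em_ev u x) h3
    simpa using this

end Matrix

section Balance

variable {G : Type} [Group G] [Fintype G] {X X' : Type} [MulAction G X] [MulAction G X']

theorem s56em_hom_balance [Fintype X] [Fintype X']
    (h : ∀ g : G, Nat.card (MulAction.fixedBy X g) = Nat.card (MulAction.fixedBy X' g)) :
    Module.finrank ℚ (s56em_P G X →ₗ[MonoidAlgebra ℚ G] s56em_P G X)
        + Module.finrank ℚ (s56em_P G X' →ₗ[MonoidAlgebra ℚ G] s56em_P G X')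
      = Module.finrank ℚ (s56em_P G X →ₗ[MonoidAlgebra ℚ G] s56em_P G X')
        + Module.finrank ℚ (s56em_P G X' →ₗ[MonoidAlgebra ℚ G] s56em_P G X) := by
  have hG : 0 < Nat.card G := Nat.card_pos
  have h1 := s56em_finrank_hom (G := G) (X := X) (Y := X)
  have h2 := s56em_finrank_hom (G := G) (X := X') (Y := X')
  have h3 := s56em_finrank_hom (G := G) (X := X) (Y := X')
  have h4 := s56em_finrank_hom (G := G) (X := X') (Y := X)
  simp only [← h] at h2 h3 h4
  rw [← h1] at h2 h3 h4
  have e2 := Nat.eq_of_mul_eq_mul_right hG h2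
  have e3 := Nat.eq_of_mul_eq_mul_right hG h3
  have e4 := Nat.eq_of_mul_eq_mul_right hG h4
  omega

end Balance

section Main

variable {G : Type} [Group G] [Fintype G] {X X' : Type} [MulAction G X] [MulAction G X']

/-- The abstract lemma on semisimple modules consumed by `s56em_matrix_of_semi`
(cell (i) of (EC3-Q)). -/
def s56em_Semi_stmt (G : Type) [Group G] : Prop :=
  ∀ (A B : Type) [AddCommGroup A] [Module ℚ A] [Module (MonoidAlgebra ℚ G) A]
    [IsScalarTower ℚ (MonoidAlgebra ℚ G) A] [FiniteDimensional ℚ A]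
    [IsSemisimpleModule (MonoidAlgebra ℚ G) A]
    [AddCommGroup B] [Module ℚ B] [Module (MonoidAlgebra ℚ G) B]
    [IsScalarTower ℚ (MonoidAlgebra ℚ G) B] [FiniteDimensional ℚ B]
    [IsSemisimpleModule (MonoidAlgebra ℚ G) B],
    Module.finrank ℚ (A →ₗ[MonoidAlgebra ℚ G] A) + Module.finrank ℚ (B →ₗ[MonoidAlgebra ℚ G] B)
      = Module.finrank ℚ (A →ₗ[MonoidAlgebra ℚ G] B)
        + Module.finrank ℚ (B →ₗ[MonoidAlgebra ℚ G] A) →
    Nonempty (A ≃ₗ[MonoidAlgebra ℚ G] B)

theorem s56em_matrix_of_semi (hsemi : s56em_Semi_stmt G) [Fintype X] [Fintype X']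
    (h : ∀ g : G, Nat.card (MulAction.fixedBy X g) = Nat.card (MulAction.fixedBy X' g)) :
    ∃ A : X' → X → ℤ, (∀ (g : G) (x' : X') (x : X), A (g • x') (g • x) = A x' x) ∧
      Function.Injective (fun (v : X → ℚ) (x' : X') => ∑ x, (A x' x : ℚ) * v x) := by
  haveI : NeZero (Nat.card G : ℚ) := ⟨by exact_mod_cast (Nat.card_pos (α := G)).ne'⟩
  obtain ⟨e⟩ := hsemi (s56em_P G X) (s56em_P G X') (s56em_hom_balance h)
  exact s56em_matrix_of_iso e

end Main

end Fermat.Agent.S56
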