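import Mathlib
import Fermat.Agent.S56.GW.EC.IndQ.Marks

/-!
# S56, node [GW-EC], cell (EC3), char-0 half: the abstract semisimple lemma (prefix `s56em_`)

`R` a `ℚ`-algebra, `A`, `B` semisimple `R`-modules, finite-dimensional over `ℚ`, with
`h(A,A) + h(B,B) = h(A,B) + h(B,A)` where `h(U,V) = dim_ℚ Hom_R(U,V)`.  Then `A ≃ B`.
-/

set_option autoImplicit false
set_option linter.unusedSectionVars false
set_option linter.style.haveILetI false

namespace Fermat.Agent.S56

open Module

section Semi

variable {R : Type} [Ring R] [Algebra ℚ R]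

section basics

variable (A B : Type) [AddCommGroup A] [Module ℚ A] [Module R A] [IsScalarTower ℚ R A]
  [AddCommGroup B] [Module ℚ B] [Module R B] [IsScalarTower ℚ R B]

/-- `Hom_R(A,B)` is finite-dimensional over `ℚ`. -/
theorem s56em_hom_finite [FiniteDimensional ℚ A] [FiniteDimensional ℚ B] :
    Module.Finite ℚ (A →ₗ[R] B) := by
  let ι : (A →ₗ[R] B) →ₗ[ℚ] (A →ₗ[ℚ] B) :=
    { toFun := fun f => f.restrictScalars ℚ
      map_add' := fun _ _ => rfl
      map_smul' := fun _ _ => rfl }
  refine Module.Finite.of_injective ι ?_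
  intro f g h
  exact LinearMap.restrictScalars_injective ℚ h

/-- `h(A,B) := dim_ℚ Hom_R(A,B)`. -/
noncomputable def s56em_h : ℕ := Module.finrank ℚ (A →ₗ[R] B)

end basics

section congr

variable {A A' B B' : Type} [AddCommGroup A] [Module ℚ A] [Module R A] [IsScalarTower ℚ R A]
  [AddCommGroup B] [Module ℚ B] [Module R B] [IsScalarTower ℚ R B]
  [AddCommGroup A'] [Module ℚ A'] [Module R A'] [IsScalarTower ℚ R A']
  [AddCommGroup B'] [Module ℚ B'] [Module R B'] [IsScalarTower ℚ R B']

theorem s56em_map_qsmul (f : A →ₗ[R] B) (c : ℚ) (x : A) : f (c • x) = c • f x := by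
  rw [← algebraMap_smul R c x, map_smul, algebraMap_smul]

/-- Transport of `Hom` along isomorphisms. -/
noncomputable def s56em_homCongr (e₁ : A ≃ₗ[R] A') (e₂ : B ≃ₗ[R] B') :
    (A →ₗ[R] B) ≃ₗ[ℚ] (A' →ₗ[R] B') where
  toFun f := (e₂.toLinearMap.comp f).comp e₁.symm.toLinearMap
  invFun f := (e₂.symm.toLinearMap.comp f).comp e₁.toLinearMap
  map_add' f g := LinearMap.ext fun x => by simp
  map_smul' c f := LinearMap.ext fun x => by
    simp only [LinearMap.comp_apply, LinearEquiv.coe_coe, LinearMap.smul_apply, RingHom.id_apply]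
    exact s56em_map_qsmul e₂.toLinearMap c _
  left_inv f := LinearMap.ext fun x => by simp
  right_inv f := LinearMap.ext fun x => by simp

theorem s56em_h_congr (e₁ : A ≃ₗ[R] A') (e₂ : B ≃ₗ[R] B') : s56em_h (R := R) A B = s56em_h (R := R) A' B' :=
  LinearEquiv.finrank_eq (s56em_homCongr e₁ e₂)

theorem s56em_finrank_congr (e : A ≃ₗ[R] A') : Module.finrank ℚ A = Module.finrank ℚ A' := by
  let e' : A ≃ₗ[ℚ] A' :=
    { e.toAddEquiv with
      map_smul' := fun c x => s56em_map_qsmul e.toLinearMap c x }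
  exact LinearEquiv.finrank_eq e'

end congr

section prod

variable (S U S' V : Type) [AddCommGroup S] [Module ℚ S] [Module R S] [IsScalarTower ℚ R S]
  [AddCommGroup U] [Module ℚ U] [Module R U] [IsScalarTower ℚ R U]
  [AddCommGroup S'] [Module ℚ S'] [Module R S'] [IsScalarTower ℚ R S']
  [AddCommGroup V] [Module ℚ V] [Module R V] [IsScalarTower ℚ R V]
  [FiniteDimensional ℚ S] [FiniteDimensional ℚ U] [FiniteDimensional ℚ S'] [FiniteDimensional ℚ V]

theorem s56em_h_prod_left :
    s56em_h (R := R) (S × U) V = s56em_h (R := R) S V + s56em_h (R := R) U V := by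
  haveI := s56em_hom_finite (R := R) S V
  haveI := s56em_hom_finite (R := R) U V
  unfold s56em_h
  rw [← LinearEquiv.finrank_eq (LinearMap.coprodEquiv (R := R) (M := S) (M₂ := U) (M₃ := V) ℚ),
    Module.finrank_prod]

theorem s56em_h_prod_right :
    s56em_h (R := R) V (S × U) = s56em_h (R := R) V S + s56em_h (R := R) V U := by
  haveI := s56em_hom_finite (R := R) V S
  haveI := s56em_hom_finite (R := R) V U
  unfold s56em_h
  rw [← LinearEquiv.finrank_eq (LinearMap.prodEquiv (R := R) (M := V) (M₂ := S) (M₃ := U) ℚ),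
    Module.finrank_prod]

theorem s56em_h_prod_prod :
    s56em_h (R := R) (S × U) (S' × V) = s56em_h (R := R) S S' + s56em_h (R := R) S V
      + s56em_h (R := R) U S' + s56em_h (R := R) U V := by
  rw [s56em_h_prod_left, s56em_h_prod_right, s56em_h_prod_right]
  ring

end prod

section sub

variable {A : Type} [AddCommGroup A] [Module ℚ A] [Module R A] [IsScalarTower ℚ R A]
  [FiniteDimensional ℚ A]

/-- Submodules are finite-dimensional over `ℚ`. -/
theorem s56em_sub_finite (K : Submodule R A) : FiniteDimensional ℚ K := by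
  let ι : K →ₗ[ℚ] A :=
    { toFun := fun x => x.1
      map_add' := fun _ _ => rfl
      map_smul' := fun _ _ => rfl }
  exact Module.Finite.of_injective ι Subtype.val_injective

end sub

section main

/-- One step of the induction: a non-zero map `A → B` splits off a common non-zero summand. -/
theorem s56em_semi_step (n : ℕ)
    (ih : ∀ m < n, ∀ (A B : Type) [AddCommGroup A] [Module ℚ A] [Module R A] [IsScalarTower ℚ R A]
      [FiniteDimensional ℚ A] [IsSemisimpleModule R A]
      [AddCommGroup B] [Module ℚ B] [Module R B] [IsScalarTower ℚ R B]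
      [FiniteDimensional ℚ B] [IsSemisimpleModule R B],
      Module.finrank ℚ A + Module.finrank ℚ B = m →
      s56em_h (R := R) A A + s56em_h (R := R) B B = s56em_h (R := R) A B + s56em_h (R := R) B A →
      Nonempty (A ≃ₗ[R] B))
    (A B : Type) [AddCommGroup A] [Module ℚ A] [Module R A] [IsScalarTower ℚ R A]
    [FiniteDimensional ℚ A] [IsSemisimpleModule R A]
    [AddCommGroup B] [Module ℚ B] [Module R B] [IsScalarTower ℚ R B]
    [FiniteDimensional ℚ B] [IsSemisimpleModule R B]
    (hn : Module.finrank ℚ A + Module.finrank ℚ B = n)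
    (hbal : s56em_h (R := R) A A + s56em_h (R := R) B B
      = s56em_h (R := R) A B + s56em_h (R := R) B A)
    (φ : A →ₗ[R] B) (hφ : φ ≠ 0) : Nonempty (A ≃ₗ[R] B) := by
  obtain ⟨K', hK'⟩ := exists_isCompl (LinearMap.ker φ)
  -- `φ` is injective on `K'`
  set ψ : K' →ₗ[R] B := φ.comp K'.subtype with hψ
  have hψinj : Function.Injective ψ := by
    rw [← LinearMap.ker_eq_bot, LinearMap.ker_eq_bot']
    intro x hx
    have h1 : (x : A) ∈ LinearMap.ker φ ⊓ K' := ⟨hx, x.2⟩
    rw [hK'.inf_eq_bot, Submodule.mem_bot] at h1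
    exact Subtype.ext h1
  obtain ⟨B1, hB1⟩ := exists_isCompl (LinearMap.range ψ)
  let eT : K' ≃ₗ[R] LinearMap.range ψ := LinearEquiv.ofInjective ψ hψinj
  let eA : (K' × LinearMap.ker φ) ≃ₗ[R] A :=
    Submodule.prodEquivOfIsCompl K' (LinearMap.ker φ) hK'.symm
  let eB : (K' × B1) ≃ₗ[R] B :=
    (LinearEquiv.prodCongr eT (LinearEquiv.refl R B1)).trans
      (Submodule.prodEquivOfIsCompl (LinearMap.range ψ) B1 hB1)
  haveI := s56em_sub_finite (R := R) K'
  haveI := s56em_sub_finite (R := R) (LinearMap.ker φ)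
  haveI := s56em_sub_finite (R := R) B1
  -- `K'` is non-zero
  have hK'ne : 0 < Module.finrank ℚ K' := by
    rw [Module.finrank_pos_iff]
    by_contra hcon
    rw [not_nontrivial_iff_subsingleton] at hcon
    apply hφ
    have hbot : K' = ⊥ := by
      rw [eq_bot_iff]
      intro x hx
      have : (⟨x, hx⟩ : K') = 0 := Subsingleton.elim _ _
      rw [Submodule.mem_bot]
      exact congrArg Subtype.val this
    have htop : LinearMap.ker φ = ⊤ := by
      have := hK'.sup_eq_top
      rwa [hbot, sup_bot_eq] at this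
    exact LinearMap.ker_eq_top.1 htop
  -- dimensions
  have hdA : Module.finrank ℚ A = Module.finrank ℚ K' + Module.finrank ℚ (LinearMap.ker φ) := by
    rw [← s56em_finrank_congr eA, Module.finrank_prod]
  have hdB : Module.finrank ℚ B = Module.finrank ℚ K' + Module.finrank ℚ B1 := by
    rw [← s56em_finrank_congr eB, Module.finrank_prod]
  -- balance for the complements
  have h1 : s56em_h (R := R) A A = s56em_h (R := R) (K' × LinearMap.ker φ) (K' × LinearMap.ker φ) :=
    (s56em_h_congr eA eA).symm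
  have h2 : s56em_h (R := R) B B = s56em_h (R := R) (K' × B1) (K' × B1) :=
    (s56em_h_congr eB eB).symm
  have h3 : s56em_h (R := R) A B = s56em_h (R := R) (K' × LinearMap.ker φ) (K' × B1) :=
    (s56em_h_congr eA eB).symm
  have h4 : s56em_h (R := R) B A = s56em_h (R := R) (K' × B1) (K' × LinearMap.ker φ) :=
    (s56em_h_congr eB eA).symm
  rw [h1, h2, h3, h4, s56em_h_prod_prod, s56em_h_prod_prod, s56em_h_prod_prod,
    s56em_h_prod_prod] at hbal
  have hbal' : s56em_h (R := R) (LinearMap.ker φ) (LinearMap.ker φ) + s56em_h (R := R) B1 B1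
      = s56em_h (R := R) (LinearMap.ker φ) B1 + s56em_h (R := R) B1 (LinearMap.ker φ) := by
    omega
  obtain ⟨e⟩ := ih (Module.finrank ℚ (LinearMap.ker φ) + Module.finrank ℚ B1) (by omega)
    (LinearMap.ker φ) B1 rfl hbal'
  exact ⟨eA.symm.trans ((LinearEquiv.prodCongr (LinearEquiv.refl R K') e).trans eB)⟩

theorem s56em_h_eq_zero (A B : Type) [AddCommGroup A] [Module ℚ A] [Module R A]
    [IsScalarTower ℚ R A] [AddCommGroup B] [Module ℚ B] [Module R B] [IsScalarTower ℚ R B]
    (h : ∀ φ : A →ₗ[R] B, φ = 0) : s56em_h (R := R) A B = 0 := by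
  haveI : Subsingleton (A →ₗ[R] B) := ⟨fun f g => by rw [h f, h g]⟩
  exact Module.finrank_zero_of_subsingleton

theorem s56em_subsingleton_of_h (A : Type) [AddCommGroup A] [Module ℚ A] [Module R A]
    [IsScalarTower ℚ R A] [FiniteDimensional ℚ A] (h : s56em_h (R := R) A A = 0) :
    Subsingleton A := by
  haveI := s56em_hom_finite (R := R) A A
  have h1 : Subsingleton (A →ₗ[R] A) := Module.finrank_zero_iff.1 h
  refine ⟨fun x y => ?_⟩
  have h2 : (LinearMap.id : A →ₗ[R] A) = 0 := Subsingleton.elim _ _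
  have hx := LinearMap.congr_fun h2 x
  have hy := LinearMap.congr_fun h2 y
  simp only [LinearMap.id_apply, LinearMap.zero_apply] at hx hy
  rw [hx, hy]

theorem s56em_semi_aux (n : ℕ) :
    ∀ (A B : Type) [AddCommGroup A] [Module ℚ A] [Module R A] [IsScalarTower ℚ R A]
      [FiniteDimensional ℚ A] [IsSemisimpleModule R A]
      [AddCommGroup B] [Module ℚ B] [Module R B] [IsScalarTower ℚ R B]
      [FiniteDimensional ℚ B] [IsSemisimpleModule R B],
      Module.finrank ℚ A + Module.finrank ℚ B = n →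
      s56em_h (R := R) A A + s56em_h (R := R) B B = s56em_h (R := R) A B + s56em_h (R := R) B A →
      Nonempty (A ≃ₗ[R] B) := by
  induction n using Nat.strong_induction_on with
  | _ n ih =>
    intro A B _ _ _ _ _ _ _ _ _ _ _ _ hn hbal
    by_cases h1 : ∃ φ : A →ₗ[R] B, φ ≠ 0
    · obtain ⟨φ, hφ⟩ := h1
      exact s56em_semi_step n ih A B hn hbal φ hφ
    by_cases h2 : ∃ ψ : B →ₗ[R] A, ψ ≠ 0
    · obtain ⟨ψ, hψ⟩ := h2
      obtain ⟨e⟩ := s56em_semi_step n
        (fun m hm A' B' _ _ _ _ _ _ _ _ _ _ _ _ hm' hb' => ih m hm A' B' hm' hb') B A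
        (by omega) (by omega) ψ hψ
      exact ⟨e.symm⟩
    · push Not at h1 h2
      rw [s56em_h_eq_zero A B h1, s56em_h_eq_zero B A h2] at hbal
      haveI := s56em_subsingleton_of_h (R := R) A (by omega)
      haveI := s56em_subsingleton_of_h (R := R) B (by omega)
      exact ⟨LinearEquiv.ofSubsingleton A B⟩

end main

end Semi

/-- **The abstract semisimple lemma**, in the shape consumed by `s56em_matrix_of_semi`. -/
theorem s56em_semi (G : Type) [Group G] : s56em_Semi_stmt G := by
  intro A B _ _ _ _ _ _ _ _ _ _ _ _ h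
  exact s56em_semi_aux (R := MonoidAlgebra ℚ G) _ A B rfl h

/-- **Equal marks ⟹ invariant integral matrix, injective over `ℚ`** ((3a)+(3b) of (EC3)). -/
theorem s56em_matrix {G : Type} [Group G] [Fintype G] {X X' : Type} [MulAction G X]
    [MulAction G X'] [Fintype X] [Fintype X']
    (h : ∀ g : G, Nat.card (MulAction.fixedBy X g) = Nat.card (MulAction.fixedBy X' g)) :
    ∃ A : X' → X → ℤ, (∀ (g : G) (x' : X') (x : X), A (g • x') (g • x) = A x' x) ∧
      Function.Injective (fun (v : X → ℚ) (x' : X') => ∑ x, (A x' x : ℚ) * v x) :=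
  s56em_matrix_of_semi (s56em_semi G) h

end Fermat.Agent.S56
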